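/-
GATE-E / E9 MODPOINT, file 5 (helper33): **the coefficient clauses of `GB/Setup/SetupPkg.Pkg` pass to
a finite extension of the coefficient ring** (Mathlib only).

`O` a local `ℤ_[p]`-algebra as in `Pkg` (finite, local, injective structure map, `Algebra (ZMod p) k`,
a primitive `p ^ A`-th root of unity `ζ`, the quadratic splitting clause `hk`), `O''` a DVR which is a
finite, local, injective extension of `O`.  Then `O''` carries ALL the coefficient fields of `Pkg`
(the `ℤ_[p]`- and `ZMod p`-structures being the composites), and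
`algebraMap (ZMod p) k'' = (k → k'') ∘ algebraMap (ZMod p) k` — so that
`thetaK … k'' = (k → k'').comp (thetaK … k)` by unfolding.
-/
import Mathlib

set_option autoImplicit false
set_option linter.style.haveILetI false

open IsLocalRing Polynomial

namespace Fermat.Agent.GE9.Point

/-- **the coefficient fields of `Pkg` over a finite extension.** -/
theorem coeff_ext {p : ℕ} [Fact p.Prime] {O : Type} [CommRing O] [IsLocalRing O]
    [Algebra ℤ_[p] O] [Module.Finite ℤ_[p] O] [IsLocalHom (algebraMap ℤ_[p] O)]
    [Algebra (ZMod p) (ResidueField O)]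
    (hinj : Function.Injective (algebraMap ℤ_[p] O)) (hpO : (p : O) ∈ maximalIdeal O)
    {A : ℕ} (ζ : O) (hζ : IsPrimitiveRoot ζ (p ^ A))
    (hk : ∀ f : (ZMod p)[X], f.Monic → f.natDegree = 2 →
      ∃ α β : ResidueField O,
        f.map (algebraMap (ZMod p) (ResidueField O)) = (X - C α) * (X - C β))
    (O'' : Type) [CommRing O''] [IsDomain O''] [IsDiscreteValuationRing O''] [Algebra O O'']
    [Module.Finite O O''] [IsLocalHom (algebraMap O O'')]
    (hinj' : Function.Injective (algebraMap O O'')) :
    ∃ (_ : Algebra ℤ_[p] O'') (_ : Module.Finite ℤ_[p] O'')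
      (_ : IsLocalHom (algebraMap ℤ_[p] O'')) (_ : Algebra (ZMod p) (ResidueField O'')),
      algebraMap ℤ_[p] O'' = (algebraMap O O'').comp (algebraMap ℤ_[p] O) ∧
      algebraMap (ZMod p) (ResidueField O'') =
        (ResidueField.map (algebraMap O O'')).comp (algebraMap (ZMod p) (ResidueField O)) ∧
      Function.Injective (algebraMap ℤ_[p] O'') ∧ (p : O'') ∈ maximalIdeal O'' ∧
      (∃ ϖ : O'', Irreducible ϖ) ∧ IsPrimitiveRoot (algebraMap O O'' ζ) (p ^ A) ∧
      ∀ f : (ZMod p)[X], f.Monic → f.natDegree = 2 →
        ∃ α β : ResidueField O'',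
          f.map (algebraMap (ZMod p) (ResidueField O'')) = (X - C α) * (X - C β) := by
  letI iAlg : Algebra ℤ_[p] O'' := ((algebraMap O O'').comp (algebraMap ℤ_[p] O)).toAlgebra
  haveI iTow : IsScalarTower ℤ_[p] O O'' := IsScalarTower.of_algebraMap_eq fun _ => rfl
  haveI iFin : Module.Finite ℤ_[p] O'' := Module.Finite.trans O O''
  haveI iLoc : IsLocalHom (algebraMap ℤ_[p] O'') := by
    change IsLocalHom ((algebraMap O O'').comp (algebraMap ℤ_[p] O))
    exact RingHom.isLocalHom_comp _ _
  letI iK : Algebra (ZMod p) (ResidueField O'') :=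
    ((ResidueField.map (algebraMap O O'')).comp (algebraMap (ZMod p) (ResidueField O))).toAlgebra
  refine ⟨iAlg, iFin, iLoc, iK, rfl, rfl, ?_, ?_, ?_, ?_, ?_⟩
  · change Function.Injective ((algebraMap O O'').comp (algebraMap ℤ_[p] O))
    exact hinj'.comp hinj
  · have h1 : (p : O'') = algebraMap O O'' (p : O) := (map_natCast _ p).symm
    rw [h1, mem_maximalIdeal, mem_nonunits_iff]
    intro hu
    exact ((mem_maximalIdeal _).mp hpO) (isUnit_of_map_unit (algebraMap O O'') _ hu)
  · exact IsDiscreteValuationRing.exists_irreducible O''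
  · exact hζ.map_of_injective hinj'
  · intro f hf hdeg
    obtain ⟨α, β, hαβ⟩ := hk f hf hdeg
    refine ⟨ResidueField.map (algebraMap O O'') α, ResidueField.map (algebraMap O O'') β, ?_⟩
    change f.map ((ResidueField.map (algebraMap O O'')).comp
      (algebraMap (ZMod p) (ResidueField O))) = _
    rw [← Polynomial.map_map, hαβ]
    simp

end Fermat.Agent.GE9.Point
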