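/-
GATE-E / E9 MODPOINT, file 1 (helper33): **the augmentation exists after a finite extension of the
coefficient ring.**

`𝒪` a complete DVR (char. 0, finite residue field), `T` a nonzero finite free commutative
`𝒪`-algebra.  Then there are a finite extension `𝒪''` of `𝒪` (again a complete DVR, char. 0, finite
residue field, `𝒪 → 𝒪''` injective and local) and an `𝒪`-algebra homomorphism `ψ : T → 𝒪''`;
if `T` is local, `ψ` is a local homomorphism.

Proof: `K = Frac 𝒪`, `A = K ⊗ T ≠ 0` is finite over `K`; `K'' := A / 𝔫` for a maximal ideal `𝔫`;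
`𝒪''` := the integral closure of `𝒪` in `K''` (`GJ/Ext/CompleteDVRExt`); the image of `T` in `K''` is
integral over `𝒪`, hence lies in `𝒪''`.
-/
import Mathlib
import Fermat.Agent.GJ.Ext.CompleteDVRExt

set_option autoImplicit false

open IsLocalRing
open scoped TensorProduct

namespace Fermat.Agent.GE9.Point

/-- a ring hom from a local ring whose image is "integrally dense" in the target is local. -/
theorem isLocalHom_of_isIntegral {T B : Type*} [CommRing T] [IsLocalRing T] [CommRing B]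
    [IsDomain B] (ψ : T →+* B) (hint : ∀ b : B, IsIntegral ψ.range b) : IsLocalHom ψ := by
  -- the inclusion of the range is integral and injective, hence local
  have hincl : IsLocalHom ψ.range.subtype := by
    refine RingHom.IsIntegral.isLocalHom (f := ψ.range.subtype) ?_ Subtype.val_injective
    intro b
    exact hint b
  refine ⟨fun x hx => ?_⟩
  -- `ψ x` is a unit of the range
  have hx' : IsUnit (⟨ψ x, x, rfl⟩ : ψ.range) := by
    have := hincl
    exact isUnit_of_map_unit ψ.range.subtype _ hx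
  obtain ⟨⟨u, v, huv, hvu⟩, hu⟩ := hx'
  obtain ⟨_, y, rfl⟩ := v
  have hu' : u = ⟨ψ x, x, rfl⟩ := hu
  subst hu'
  have h1 : ψ (x * y) = 1 := by
    have := congrArg Subtype.val huv
    simpa using this
  -- `x * y - 1 ∈ ker ψ ⊆ 𝔪`
  by_contra hxu
  have hxm : x ∈ maximalIdeal T := (mem_maximalIdeal x).mpr hxu
  have hker : RingHom.ker ψ ≤ maximalIdeal T := le_maximalIdeal (RingHom.ker_ne_top ψ)
  have h2 : x * y - 1 ∈ maximalIdeal T :=
    hker (by rw [RingHom.mem_ker, map_sub, h1, map_one, sub_self])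
  have h3 : (1 : T) ∈ maximalIdeal T := by
    have h4 := (maximalIdeal T).sub_mem ((maximalIdeal T).mul_mem_right y hxm) h2
    have h5 : x * y - (x * y - 1) = 1 := by ring
    rwa [h5] at h4
  exact (maximalIdeal.isMaximal T).ne_top ((Ideal.eq_top_iff_one _).mpr h3)

section Ext

variable (𝒪 : Type) [CommRing 𝒪] [IsDomain 𝒪] [IsDiscreteValuationRing 𝒪]
  [IsAdicComplete (maximalIdeal 𝒪) 𝒪] [Finite (ResidueField 𝒪)] [CharZero 𝒪]
  (T : Type) [CommRing T] [Algebra 𝒪 T] [Module.Finite 𝒪 T] [Module.Free 𝒪 T] [Nontrivial T]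

omit [IsAdicComplete (maximalIdeal 𝒪) 𝒪] [Finite (ResidueField 𝒪)] [CharZero 𝒪] in
/-- a finite field extension `K''` of `K = Frac 𝒪` with an `𝒪`-algebra map `T → K''`. -/
theorem exists_field_point :
    ∃ (K'' : Type) (_ : Field K'') (_ : Algebra (FractionRing 𝒪) K'')
      (_ : FiniteDimensional (FractionRing 𝒪) K'') (_ : Algebra 𝒪 K'')
      (_ : IsScalarTower 𝒪 (FractionRing 𝒪) K''), Nonempty (T →ₐ[𝒪] K'') := by
  classical
  let K := FractionRing 𝒪
  let A := K ⊗[𝒪] T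
  -- `A ≠ 0`
  have hrank : Module.finrank K A = Module.finrank 𝒪 T := Module.finrank_baseChange
  have hpos : 0 < Module.finrank 𝒪 T := Module.finrank_pos
  have hA : Nontrivial A := by
    have h1 : 0 < Module.finrank K A := by rw [hrank]; exact hpos
    exact Module.finrank_pos_iff.mp h1
  obtain ⟨𝔫, h𝔫⟩ := Ideal.exists_maximal A
  let _ : Field (A ⧸ 𝔫) := Ideal.Quotient.field 𝔫
  have hfin : FiniteDimensional K (A ⧸ 𝔫) :=
    Module.Finite.of_surjective (Ideal.Quotient.mkₐ K 𝔫).toLinearMap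
      (Ideal.Quotient.mkₐ_surjective K 𝔫)
  refine ⟨A ⧸ 𝔫, inferInstance, inferInstance, hfin, inferInstance, inferInstance, ⟨?_⟩⟩
  exact (Ideal.Quotient.mkₐ 𝒪 𝔫).comp (Algebra.TensorProduct.includeRight : T →ₐ[𝒪] A)

/-- **the augmentation after a finite extension of the coefficient ring.** -/
theorem exists_ext_point :
    ∃ (𝒪'' : Type) (_ : CommRing 𝒪'') (_ : IsDomain 𝒪'') (_ : IsDiscreteValuationRing 𝒪'')
      (_ : IsAdicComplete (maximalIdeal 𝒪'') 𝒪'')
      (_ : Finite (ResidueField 𝒪'')) (_ : CharZero 𝒪'')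
      (_ : Algebra 𝒪 𝒪'') (_ : Module.Finite 𝒪 𝒪'') (_ : IsLocalHom (algebraMap 𝒪 𝒪'')),
      Function.Injective (algebraMap 𝒪 𝒪'') ∧
      ∃ ψ : T →ₐ[𝒪] 𝒪'', ∀ [IsLocalRing T], IsLocalHom (ψ : T →+* 𝒪'') := by
  classical
  obtain ⟨K'', iF, iA, iFD, iAO, iST, ⟨g⟩⟩ := exists_field_point 𝒪 T
  obtain ⟨𝒪'', i1, i2, i3, i4, i5, i6, i7, i8, i9, i10, i11, i12, hinj⟩ :=
    Fermat.Agent.GJ.Ext.exists_completeDVR_ext 𝒪 (FractionRing 𝒪) K''
  refine ⟨𝒪'', i1, i2, i3, i4, i5, i6, i7, i8, i9, hinj, ?_⟩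
  -- the image of `T` is integral, hence inside `𝒪''`
  let ι : 𝒪'' →ₐ[𝒪] K'' := IsScalarTower.toAlgHom 𝒪 𝒪'' K''
  have hι : Function.Injective ι := IsFractionRing.injective 𝒪'' K''
  have hmem : ∀ t : T, g t ∈ ι.range := by
    intro t
    have h1 : IsIntegral 𝒪 t := Algebra.IsIntegral.isIntegral t
    have h2 : IsIntegral 𝒪 (g t) := h1.map g
    have h3 : IsIntegral 𝒪'' (g t) := h2.tower_top
    obtain ⟨y, hy⟩ := IsIntegrallyClosed.isIntegral_iff.mp h3
    exact ⟨y, hy⟩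
  let e : 𝒪'' ≃ₐ[𝒪] ι.range := AlgEquiv.ofInjective ι hι
  let ψ : T →ₐ[𝒪] 𝒪'' := (e.symm : ι.range →ₐ[𝒪] 𝒪'').comp (g.codRestrict ι.range hmem)
  refine ⟨ψ, ?_⟩
  intro _
  -- every element of `𝒪''` is integral over `𝒪`, hence over the range of `ψ`
  apply isLocalHom_of_isIntegral
  intro b
  have hb : IsIntegral 𝒪 b := Algebra.IsIntegral.isIntegral b
  obtain ⟨P, hP, hPb⟩ := hb
  refine ⟨P.map ((ψ : T →+* 𝒪'').rangeRestrict.comp (algebraMap 𝒪 T)), hP.map _, ?_⟩
  rw [Polynomial.eval₂_map]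
  have hcomp : (algebraMap ↥(ψ : T →+* 𝒪'').range 𝒪'').comp
      ((ψ : T →+* 𝒪'').rangeRestrict.comp (algebraMap 𝒪 T)) = algebraMap 𝒪 𝒪'' := by
    ext r
    change ψ (algebraMap 𝒪 T r) = algebraMap 𝒪 𝒪'' r
    exact ψ.commutes r
  rw [hcomp]
  exact hPb

end Ext

end Fermat.Agent.GE9.Point
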