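/-
GATE-E / E9 MODPOINT, file 3 (helper33): **an eigensystem lifting `θ̄` exists over a finite extension
of the coefficient ring** (Prelude + `GE9/Point/ExtPoint` only).

`H : CuspForm.HeckeGaloisRepDatum N S 𝒪 θ T` (frozen S54 vocabulary; `T` local, finite free over
`𝒪`).  Then there are a finite extension `𝒪''` of `𝒪` (complete DVR, char. 0, finite residue field,
`𝒪 → 𝒪''` injective and local) and a ring hom `χ : heckeAlgebra N 2 S →+* 𝒪''` with
`residue (χ t) = θ t` (pushed to the residue field of `𝒪''`).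

With `𝒪''` as the coefficient ring of the engine, frozen `HeckeGaloisRepDatum.exists_point` turns
`χ` into the augmentation `T'' →ₐ[𝒪''] 𝒪''` required by the numerical criterion.
-/
import Fermat.Agent.GE9.Point.ExtPoint
import Fermat.Prelude.Def_CuspForm_HeckeGaloisRepDatum

set_option autoImplicit false

open IsLocalRing CuspForm

namespace Fermat.Agent.GE9.Point

/-- **an eigensystem lifting `θ̄` over a finite extension of `𝒪`.** -/
theorem exists_ext_eigensystem {𝒪 : Type} [CommRing 𝒪] [IsDomain 𝒪] [IsDiscreteValuationRing 𝒪]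
    [IsAdicComplete (maximalIdeal 𝒪) 𝒪] [Finite (ResidueField 𝒪)] [CharZero 𝒪]
    {N : ℕ} [NeZero N] {S : Set ℕ} {θ : ↥(heckeAlgebra N 2 S) →+* ResidueField 𝒪}
    {T : Type} [CommRing T] [IsLocalRing T] [IsNoetherianRing T]
    [IsAdicComplete (maximalIdeal T) T] [Algebra 𝒪 T] [IsLocalHom (algebraMap 𝒪 T)]
    [Module.Finite 𝒪 T] [Module.Free 𝒪 T] (H : HeckeGaloisRepDatum N S 𝒪 θ T) :
    ∃ (𝒪'' : Type) (_ : CommRing 𝒪'') (_ : IsDomain 𝒪'') (_ : IsDiscreteValuationRing 𝒪'')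
      (_ : IsAdicComplete (maximalIdeal 𝒪'') 𝒪'')
      (_ : Finite (ResidueField 𝒪'')) (_ : CharZero 𝒪'')
      (_ : Algebra 𝒪 𝒪'') (_ : Module.Finite 𝒪 𝒪'') (_ : IsLocalHom (algebraMap 𝒪 𝒪'')),
      Function.Injective (algebraMap 𝒪 𝒪'') ∧
      ∃ χ : ↥(heckeAlgebra N 2 S) →+* 𝒪'', ∀ t : ↥(heckeAlgebra N 2 S),
        residue 𝒪'' (χ t) = ResidueField.map (algebraMap 𝒪 𝒪'') (θ t) := by
  obtain ⟨𝒪'', i1, i2, i3, i4, i5, i6, i7, i8, i9, hinj, ψ, hψ⟩ := exists_ext_point 𝒪 T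
  refine ⟨𝒪'', i1, i2, i3, i4, i5, i6, i7, i8, i9, hinj, (ψ : T →+* 𝒪'').comp H.π, fun t => ?_⟩
  have hloc : IsLocalHom (ψ : T →+* 𝒪'') := hψ
  obtain ⟨a, ha⟩ := residue_surjective (θ t)
  have h1 := H.residue_π t
  rw [← ha, ResidueField.map_residue] at h1
  rw [← ha, ResidueField.map_residue]
  -- `π t - a ∈ 𝔪_T`, hence `ψ (π t) - a ∈ 𝔪''`
  have h2 : H.π t - algebraMap 𝒪 T a ∈ maximalIdeal T := by
    rw [← residue_eq_zero_iff, map_sub, h1, sub_self]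
  have h3 : (ψ : T →+* 𝒪'') (H.π t - algebraMap 𝒪 T a) ∈ maximalIdeal 𝒪'' := by
    rw [mem_maximalIdeal, mem_nonunits_iff] at h2 ⊢
    exact fun hu => h2 (isUnit_of_map_unit (ψ : T →+* 𝒪'') _ hu)
  rw [map_sub] at h3
  have h4 : (ψ : T →+* 𝒪'') (algebraMap 𝒪 T a) = algebraMap 𝒪 𝒪'' a := ψ.commutes a
  rw [h4, ← residue_eq_zero_iff, map_sub, sub_eq_zero] at h3
  exact h3

end Fermat.Agent.GE9.Point
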