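/-
GATE-E / E9 MODPOINT, file 2 (helper33): **old-form transfer of points of anemic Hecke algebras.**

`N ∣ N'`, `S` a set of primes containing the primes of `N'`.  Every point
`χ : heckeAlgebra N 2 S →+* D` (`D` a char-0 domain) gives a point
`χ' : heckeAlgebra N' 2 S →+* D` with the SAME values on the `T_ℓ`, `ℓ ∉ S`:

  `χ` ⟹ eigenform `G` of level `N` (`GB/B7/Point`, Deligne–Serre + multiplicity one)
      ⟹ eigenform `G'` of level `N'` with `a_ℓ(G') = a_ℓ(G)`, `ℓ ∤ N'/N` (`GE/Stab`)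
      ⟹ eigencharacter `λ' : heckeAlgebra N' 2 S →+* ℂ` (`GJ/J4/EigChar`), whose values on the
         generators `T_ℓ` lie in `ι(range χ)`, hence everywhere (`S54/Formal.pi_mem_of_T_mem`).

This is the stage supply of the augmentation: ONE eigensystem at the minimal level `N_∅` gives the
eigensystem at every level `N_Σ` (ruling A6.1 §4 of the gate lead).

* `ringHom_ext_T`      : ring homs out of an anemic Hecke algebra are determined by the `T_ℓ`;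
* `exists_point_of_dvd`: the transfer.
-/
import Fermat.Agent.GB.B7.Point
import Fermat.Agent.GE.Stab
import Fermat.Agent.GJ.J4.EigChar
import Fermat.Agent.S54.Formal

set_option autoImplicit false

open CuspForm CongruenceSubgroup ModularFormClass

namespace Fermat.Agent.GE9.Point

/-- ring homs out of an anemic Hecke algebra (all primes of the level removed) are determined by
their values on the `T_ℓ`. -/
theorem ringHom_ext_T {N : ℕ} [NeZero N] {S : Set ℕ} (hS : ∀ q : ℕ, q.Prime → q ∣ N → q ∈ S)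
    {R : Type*} [Semiring R] (f g : ↥(heckeAlgebra N 2 S) →+* R)
    (h : ∀ (ℓ : ℕ) (hℓ : ℓ.Prime) (hℓN : ¬ ℓ ∣ N) (hℓS : ℓ ∉ S),
      f (heckeAlgebra.T hℓ hℓN hℓS) = g (heckeAlgebra.T hℓ hℓN hℓS)) : f = g := by
  ext t
  have := Fermat.Agent.S54.pi_mem_of_T_mem (RingHom.id ↥(heckeAlgebra N 2 S)) hS
    (RingHom.eqLocus f g) (fun ℓ hℓ hℓN hℓS => h ℓ hℓ hℓN hℓS) t
  exact this

/-- **old-form transfer of points.** -/
theorem exists_point_of_dvd {N N' : ℕ} [NeZero N] [NeZero N'] (hNN' : N ∣ N') (S : Set ℕ)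
    (hS' : ∀ q : ℕ, q.Prime → q ∣ N' → q ∈ S)
    {D : Type*} [CommRing D] [IsDomain D] [CharZero D] (χ : ↥(heckeAlgebra N 2 S) →+* D) :
    ∃ χ' : ↥(heckeAlgebra N' 2 S) →+* D,
      ∀ (ℓ : ℕ) (hℓ : ℓ.Prime) (hℓN' : ¬ ℓ ∣ N') (hℓS : ℓ ∉ S),
        χ' (heckeAlgebra.T hℓ hℓN' hℓS) =
          χ (heckeAlgebra.T hℓ (fun h => hℓN' (h.trans hNN')) hℓS) := by
  classical
  obtain ⟨ι, hι, G, hG, hT, -⟩ := Fermat.Agent.GB.B7.Point.exists_eigenform_of_point_set S χ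
  obtain ⟨G', hG', hG'ℓ⟩ :=
    Fermat.Agent.GE.Stab.exists_eigenform_of_dvd hNN' (NeZero.ne N') hG
  -- the eigencharacter of `G'`
  let lam' : ↥(heckeAlgebra N' 2 S) →+* ℂ := Fermat.Agent.GJ.EigChar.lam hG'
  have hlamT : ∀ (ℓ : ℕ) (hℓ : ℓ.Prime) (hℓN' : ¬ ℓ ∣ N') (hℓS : ℓ ∉ S),
      lam' (heckeAlgebra.T hℓ hℓN' hℓS) =
        ι (χ.rangeRestrict (heckeAlgebra.T hℓ (fun h => hℓN' (h.trans hNN')) hℓS)) := by
    intro ℓ hℓ hℓN' hℓS
    have hd : ¬ ℓ ∣ N' / N := fun h => hℓN' (h.trans (Nat.div_dvd_of_dvd hNN'))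
    rw [Fermat.Agent.GJ.EigChar.lam_T hG' hℓ hℓN' hℓS, hG'ℓ ℓ hℓ hd, hT ℓ hℓ _ hℓS]
  -- its values lie in the range of `ι`
  have hmem : ∀ t : ↥(heckeAlgebra N' 2 S), lam' t ∈ ι.range :=
    Fermat.Agent.S54.pi_mem_of_T_mem lam' hS' ι.range
      (fun ℓ hℓ hℓN' hℓS => ⟨_, (hlamT ℓ hℓ hℓN' hℓS).symm⟩)
  -- pull back along `ι`
  let e : ↥χ.range ≃+* ↥ι.range := RingEquiv.ofBijective ι.rangeRestrict
    ⟨fun a b hab => hι (congrArg Subtype.val hab), ι.rangeRestrict_surjective⟩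
  let χ'' : ↥(heckeAlgebra N' 2 S) →+* ↥χ.range :=
    (e.symm : ↥ι.range →+* ↥χ.range).comp (lam'.codRestrict ι.range hmem)
  have hχ'' : ∀ t : ↥(heckeAlgebra N' 2 S), ι (χ'' t) = lam' t := by
    intro t
    have h1 : e (χ'' t) = lam'.codRestrict ι.range hmem t := e.apply_symm_apply _
    have h2 := congrArg Subtype.val h1
    exact h2
  refine ⟨χ.range.subtype.comp χ'', fun ℓ hℓ hℓN' hℓS => ?_⟩
  have h3 : χ'' (heckeAlgebra.T hℓ hℓN' hℓS) =
      χ.rangeRestrict (heckeAlgebra.T hℓ (fun h => hℓN' (h.trans hNN')) hℓS) :=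
    hι (by rw [hχ'', hlamT])
  change ((χ'' (heckeAlgebra.T hℓ hℓN' hℓS) : ↥χ.range) : D) = _
  rw [h3]
  rfl

end Fermat.Agent.GE9.Point
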