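/-
GATE-E / E9 MODPOINT, file 4 (helper33): **the stage supply of the eigensystem.**

Once the coefficient ring `𝒪''` and ONE eigensystem `χ : heckeAlgebra N 2 S →+* 𝒪''` lifting `θ̄`
at the minimal level `N = N_∅` are fixed (`DatumPoint.exists_ext_eigensystem`), every level
`N' = N_Σ` (`N ∣ N'`, primes of `N'` in `S`) carries an eigensystem
`χ' : heckeAlgebra N' 2 S →+* 𝒪''` with the same values on the `T_ℓ` and lifting the residual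
eigensystem `θ̄'` of level `N'` — the input `χ'` of the augmentation `πO'` at stage `Σ`
(`PushTloc.exists_phi` / frozen `HeckeGaloisRepDatum.exists_point`).
-/
import Fermat.Agent.GE9.Point.Transfer
import Fermat.Agent.GE9.Point.DatumPoint

set_option autoImplicit false

open IsLocalRing CuspForm

namespace Fermat.Agent.GE9.Point

/-- **the eigensystem at stage `N'`** from the eigensystem at the minimal level `N`. -/
theorem exists_stage_eigensystem {N N' : ℕ} [NeZero N] [NeZero N'] (hNN' : N ∣ N') (S : Set ℕ)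
    (hS' : ∀ q : ℕ, q.Prime → q ∣ N' → q ∈ S)
    {D : Type*} [CommRing D] [IsDomain D] [CharZero D] [IsLocalRing D]
    (χ : ↥(heckeAlgebra N 2 S) →+* D)
    (θ : ↥(heckeAlgebra N 2 S) →+* ResidueField D)
    (hχθ : ∀ t : ↥(heckeAlgebra N 2 S), residue D (χ t) = θ t)
    (θ' : ↥(heckeAlgebra N' 2 S) →+* ResidueField D)
    (hθ' : ∀ (ℓ : ℕ) (hℓ : ℓ.Prime) (hℓN' : ¬ ℓ ∣ N') (hℓS : ℓ ∉ S),
      θ' (heckeAlgebra.T hℓ hℓN' hℓS) =
        θ (heckeAlgebra.T hℓ (fun h => hℓN' (h.trans hNN')) hℓS)) :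
    ∃ χ' : ↥(heckeAlgebra N' 2 S) →+* D,
      (∀ (ℓ : ℕ) (hℓ : ℓ.Prime) (hℓN' : ¬ ℓ ∣ N') (hℓS : ℓ ∉ S),
        χ' (heckeAlgebra.T hℓ hℓN' hℓS) =
          χ (heckeAlgebra.T hℓ (fun h => hℓN' (h.trans hNN')) hℓS)) ∧
      ∀ t : ↥(heckeAlgebra N' 2 S), residue D (χ' t) = θ' t := by
  obtain ⟨χ', hχ'⟩ := exists_point_of_dvd hNN' S hS' χ
  refine ⟨χ', hχ', fun t => ?_⟩
  have h : (residue D).comp χ' = θ' := by
    apply ringHom_ext_T hS'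
    intro ℓ hℓ hℓN' hℓS
    rw [RingHom.comp_apply, hχ' ℓ hℓ hℓN' hℓS, hχθ, hθ' ℓ hℓ hℓN' hℓS]
  exact RingHom.congr_fun h t

/-- the same with the values `a ℓ` of both residual eigensystems prescribed (the `theta_T` form of
`GB/Setup/SetupPkg`: `θ̄(T_ℓ) = (a_ℓ(W) : k)` at every level). -/
theorem exists_stage_eigensystem_of_values {N N' : ℕ} [NeZero N] [NeZero N'] (hNN' : N ∣ N')
    (S : Set ℕ) (hS' : ∀ q : ℕ, q.Prime → q ∣ N' → q ∈ S)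
    {D : Type*} [CommRing D] [IsDomain D] [CharZero D] [IsLocalRing D]
    (χ : ↥(heckeAlgebra N 2 S) →+* D)
    (θ : ↥(heckeAlgebra N 2 S) →+* ResidueField D)
    (hχθ : ∀ t : ↥(heckeAlgebra N 2 S), residue D (χ t) = θ t)
    (θ' : ↥(heckeAlgebra N' 2 S) →+* ResidueField D) (a : ℕ → ResidueField D)
    (hθ : ∀ (ℓ : ℕ) (hℓ : ℓ.Prime) (hℓN : ¬ ℓ ∣ N) (hℓS : ℓ ∉ S),
      θ (heckeAlgebra.T hℓ hℓN hℓS) = a ℓ)
    (hθ' : ∀ (ℓ : ℕ) (hℓ : ℓ.Prime) (hℓN' : ¬ ℓ ∣ N') (hℓS : ℓ ∉ S),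
      θ' (heckeAlgebra.T hℓ hℓN' hℓS) = a ℓ) :
    ∃ χ' : ↥(heckeAlgebra N' 2 S) →+* D,
      (∀ (ℓ : ℕ) (hℓ : ℓ.Prime) (hℓN' : ¬ ℓ ∣ N') (hℓS : ℓ ∉ S),
        χ' (heckeAlgebra.T hℓ hℓN' hℓS) =
          χ (heckeAlgebra.T hℓ (fun h => hℓN' (h.trans hNN')) hℓS)) ∧
      ∀ t : ↥(heckeAlgebra N' 2 S), residue D (χ' t) = θ' t :=
  exists_stage_eigensystem hNN' S hS' χ θ hχθ θ'
    (fun ℓ hℓ hℓN' hℓS => by rw [hθ' ℓ hℓ hℓN' hℓS, hθ ℓ hℓ _ hℓS])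

end Fermat.Agent.GE9.Point
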