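/-
GATE-E / E9 MODPOINT, file 6 (helper33): **the SETUP bundle re-based on a coefficient ring with a
modular point**, and the stage supply in the bundle vocabulary.

* `exists_pkg_point` : from ANY bundle `P₀ : Pkg p W hcard₁ hker M A` (GB/Setup/SetupPkg) a bundle `P`
  with the same modularity datum `D`, whose coefficient ring `P.O` is a finite extension of `P₀.O`
  carrying an eigensystem `χ : heckeAlgebra M 2 ↑P.S0 →+* P.O` with `residue (χ t) = P.theta t`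
  (`DatumPoint.exists_ext_eigensystem` on `P₀.exists_datum` + `CoeffExt.coeff_ext`).
* `exists_stage_point` : for `M ∣ M'`, primes of `M'` in `P.S0`, `D' : ModData W p M'`:
  an eigensystem `χ' : heckeAlgebra M' 2 ↑P.S0 →+* P.O` with the SAME `T_ℓ`-values, lifting
  `thetaK D' ↑P.S0 … P.k` — the input of the augmentation `πO'` at the stage of level `M'`
  (`Carrier.exists_point` / frozen `HeckeGaloisRepDatum.exists_point`).
-/
import Fermat.Agent.GB.Setup.SetupPkg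
import Fermat.Agent.GE9.Point.Stage
import Fermat.Agent.GE9.Point.CoeffExt

set_option autoImplicit false

open WeierstrassCurve WeierstrassCurve.Affine.Point Polynomial IsLocalRing CuspForm
open scoped WeierstrassCurve.Affine

namespace Fermat.Agent.GE9.Point

open Fermat.Agent.GB.Setup.SetupPkg Fermat.Agent.GB.Setup.RhoBar Fermat.Agent.GB.Setup.Theta

variable {p : ℕ} [Fact p.Prime] {W : WeierstrassCurve ℤ}
  {hcard₁ : Nat.card (Submodule.torsionBy ℤ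
    ((W.map (Int.castRingHom ℚ))⁄(AlgebraicClosure ℚ)).Point p) = p ^ 2}
  {hker : GaloisFactorsThroughFiniteLevel
    (galoisRepModuleEnd (K := AlgebraicClosure ℚ) ℚ (W.map (Int.castRingHom ℚ)) p)}
  {M A : ℕ}

/-- **the bundle re-based on a coefficient ring with a modular point.** -/
theorem exists_pkg_point [NeZero M] (P₀ : Pkg p W hcard₁ hker M A) :
    ∃ (P : Pkg p W hcard₁ hker M A) (χ : ↥(heckeAlgebra M 2 (↑P.S0 : Set ℕ)) →+* P.O),
      P.D = P₀.D ∧ ∀ t : ↥(heckeAlgebra M 2 (↑P.S0 : Set ℕ)), residue P.O (χ t) = P.theta t := by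
  obtain ⟨H₀, -⟩ := P₀.exists_datum
  obtain ⟨O'', i1, i2, i3, i4, i5, i6, i7, i8, i9, hinj', χ, hχ⟩ := exists_ext_eigensystem H₀
  obtain ⟨a1, a2, a3, a4, -, e2, hi, hp, ⟨ϖ, hϖ⟩, hζ, hk⟩ :=
    coeff_ext P₀.injZp P₀.hpO P₀.ζ P₀.hζ P₀.hk O'' hinj'
  let P : Pkg p W hcard₁ hker M A :=
    { O := O''
      crO := i1
      domO := i2
      dvrO := i3
      complO := i4
      finO := i5
      char0 := i6
      algZp := a1
      finZp := a2
      locZp := a3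
      algk := a4
      injZp := hi
      ϖ := ϖ
      hϖ := hϖ
      hpO := hp
      ζ := algebraMap P₀.O O'' P₀.ζ
      hζ := hζ
      hk := hk
      D := P₀.D
      hM := P₀.hM
      hp2 := P₀.hp2
      hΔ := P₀.hΔ
      hirr := P₀.hirr
      htrans := P₀.htrans }
  refine ⟨P, χ, rfl, fun t => ?_⟩
  refine (hχ t).trans ?_
  change ResidueField.map (algebraMap P₀.O O'')
      (algebraMap (ZMod p) (ResidueField P₀.O)
        (theta P₀.D (↑P₀.S0 : Set ℕ) P₀.hpS0 P₀.hMS0 P₀.hWS0 t)) =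
    algebraMap (ZMod p) (ResidueField O'')
      (theta P₀.D (↑P₀.S0 : Set ℕ) P₀.hpS0 P₀.hMS0 P₀.hWS0 t)
  rw [e2]
  rfl

/-- **the eigensystem at the stage of level `M'`**, in the bundle vocabulary. -/
theorem exists_stage_point [NeZero M] (P : Pkg p W hcard₁ hker M A)
    (χ : ↥(heckeAlgebra M 2 (↑P.S0 : Set ℕ)) →+* P.O)
    (hχ : ∀ t : ↥(heckeAlgebra M 2 (↑P.S0 : Set ℕ)), residue P.O (χ t) = P.theta t)
    {M' : ℕ} [NeZero M'] (hMM' : M ∣ M') (D' : ModData W p M')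
    (hMS' : ∀ q : ℕ, q.Prime → q ∣ M' → q ∈ (↑P.S0 : Set ℕ)) :
    ∃ χ' : ↥(heckeAlgebra M' 2 (↑P.S0 : Set ℕ)) →+* P.O,
      (∀ (ℓ : ℕ) (hℓ : ℓ.Prime) (hℓM' : ¬ ℓ ∣ M') (hℓS : ℓ ∉ (↑P.S0 : Set ℕ)),
        χ' (heckeAlgebra.T hℓ hℓM' hℓS) =
          χ (heckeAlgebra.T hℓ (fun h => hℓM' (h.trans hMM')) hℓS)) ∧
      ∀ t : ↥(heckeAlgebra M' 2 (↑P.S0 : Set ℕ)),
        residue P.O (χ' t) = thetaK D' (↑P.S0 : Set ℕ) P.hpS0 hMS' P.hWS0 P.k t :=
  exists_stage_eigensystem_of_values hMM' (↑P.S0 : Set ℕ) hMS' χ P.theta hχ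
    (thetaK D' (↑P.S0 : Set ℕ) P.hpS0 hMS' P.hWS0 P.k)
    (fun ℓ => ((W.apOfModel ℓ : ℤ) : P.k))
    (fun _ hℓ hℓM hℓS => P.theta_T hℓ hℓM hℓS)
    (fun _ hℓ hℓM' hℓS => thetaK_T D' (↑P.S0 : Set ℕ) P.hpS0 hMS' P.hWS0 P.k hℓ hℓM' hℓS)

end Fermat.Agent.GE9.Point
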