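/-
GATE-E / RISK-4 R4-H, seam (S3) (helper26; statements = helper80, board 7822 / 7829): **two bundles
over the SAME coefficient ring at the levels `M` and `M * p`, and transport of a modular point along
a local map of coefficient rings.**

(a) `Pkg.withLevel` of the plan IS `GB/Setup/PkgLevel.atLevel` (helper39, on main): the bundle with
    the same coefficient fields and another modularity datum `D' : ModData W p M'`.  Here: the
    `rfl`-lemmas `atLevel_O / _k / _rhobar / _D / _S0`, and, when `M` and `M'` have the same prime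
    divisors away from `p`, `atLevel_Smin`, `atLevel_S0_eq`, `atLevel_Su` (`p` is always inserted in
    `Smin` and `S0`, always removed from `Su`) + the two instances `M' = M * p`, `M = M' * p`.
(b) `exists_pkg_point_alg` = `GE9/Point/PkgExt.exists_pkg_point` RETURNING the map
    `ι : P₀.O →+* P.O` (local, injective) and its compatibility with the `ZMod p`-structures.
(c) `theta_comp_of_isLocalHom` : bundles `P₁ P₂` at the same level with `P₂.D = P₁.D`,
    `ι : P₁.O →+* P₂.O` local, `χ` lifting `P₁.theta` ⟹ `ι ∘ χ` lifts `P₂.theta`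
    (`ZMod p` has at most one ring map to any ring).  `theta_comp_atLevel` = the form used by the
    two-points assembly (`P₂ := atLevel P P₁.D P₁.hM`).
-/
import Fermat.Agent.GB.Setup.PkgLevel
import Fermat.Agent.GE9.Point.PkgExt

set_option autoImplicit false

open WeierstrassCurve WeierstrassCurve.Affine.Point Polynomial IsLocalRing CuspForm
open scoped WeierstrassCurve.Affine

namespace Fermat.Agent.GE9.Point.PkgLevel

open Fermat.Agent.GB.Setup.SetupPkg Fermat.Agent.GB.Setup.RhoBar Fermat.Agent.GB.Setup.Theta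
open Fermat.Agent.GB.Setup.PkgLevel

variable {p : ℕ} [Fact p.Prime] {W : WeierstrassCurve ℤ}
  {hcard₁ : Nat.card (Submodule.torsionBy ℤ
    ((W.map (Int.castRingHom ℚ))⁄(AlgebraicClosure ℚ)).Point p) = p ^ 2}
  {hker : GaloisFactorsThroughFiniteLevel
    (galoisRepModuleEnd (K := AlgebraicClosure ℚ) ℚ (W.map (Int.castRingHom ℚ)) p)}
  {M A : ℕ}

/-! ### (a) the bundle at another level: `rfl`-lemmas and `Smin`, `S0`, `Su` -/

section AtLevel

variable (P : Pkg p W hcard₁ hker M A) {M' : ℕ} (D' : ModData W p M') (hM' : M' ≠ 0)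

theorem atLevel_O : (atLevel P D' hM').O = P.O := rfl

theorem atLevel_k : (atLevel P D' hM').k = P.k := rfl

theorem atLevel_ϖ : (atLevel P D' hM').ϖ = P.ϖ := rfl

theorem atLevel_ζ : (atLevel P D' hM').ζ = P.ζ := rfl

theorem atLevel_D : (atLevel P D' hM').D = D' := rfl

theorem atLevel_rhobar : (atLevel P D' hM').rhobar = P.rhobar := rfl

theorem atLevel_S0 :
    (atLevel P D' hM').S0 = M'.primeFactors ∪ {p} ∪ W.Δ.natAbs.primeFactors := rfl

/-- the bundle at its own level and datum is itself, field by field (used as `rfl`). -/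
theorem atLevel_self_O : (atLevel P P.D P.hM).O = P.O := rfl

variable {P D' hM'}

/-- membership in `Smin` of the re-levelled bundle. -/
theorem mem_atLevel_Smin {q : ℕ} :
    q ∈ (atLevel P D' hM').Smin ↔
      q = p ∨ (q.Prime ∧ q ∣ M' ∧ ¬ P.rhobar.IsUnramifiedAt q) := by
  classical
  rw [Pkg.Smin, Finset.mem_insert, Finset.mem_filter, Nat.mem_primeFactors]
  constructor
  · rintro (h | ⟨⟨h1, h2, -⟩, h3⟩)
    · exact Or.inl h
    · exact Or.inr ⟨h1, h2, h3⟩
  · rintro (h | ⟨h1, h2, h3⟩)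
    · exact Or.inl h
    · exact Or.inr ⟨⟨h1, h2, hM'⟩, h3⟩

/-- membership in `Smin` of a bundle (the case `M' = M`, `D' = P.D` of the previous lemma). -/
theorem mem_Smin_iff {q : ℕ} :
    q ∈ P.Smin ↔ q = p ∨ (q.Prime ∧ q ∣ M ∧ ¬ P.rhobar.IsUnramifiedAt q) := by
  classical
  rw [Pkg.Smin, Finset.mem_insert, Finset.mem_filter, Nat.mem_primeFactors]
  constructor
  · rintro (h | ⟨⟨h1, h2, -⟩, h3⟩)
    · exact Or.inl h
    · exact Or.inr ⟨h1, h2, h3⟩
  · rintro (h | ⟨h1, h2, h3⟩)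
    · exact Or.inl h
    · exact Or.inr ⟨⟨h1, h2, P.hM⟩, h3⟩

/-- **`Smin` does not change** when the level keeps its prime divisors away from `p`. -/
theorem atLevel_Smin (h : ∀ q : ℕ, q.Prime → q ≠ p → (q ∣ M' ↔ q ∣ M)) :
    (atLevel P D' hM').Smin = P.Smin := by
  ext q
  rw [mem_atLevel_Smin, mem_Smin_iff]
  constructor
  · rintro (hq | ⟨h1, h2, h3⟩)
    · exact Or.inl hq
    · by_cases hqp : q = p
      · exact Or.inl hqp
      · exact Or.inr ⟨h1, (h q h1 hqp).mp h2, h3⟩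
  · rintro (hq | ⟨h1, h2, h3⟩)
    · exact Or.inl hq
    · by_cases hqp : q = p
      · exact Or.inl hqp
      · exact Or.inr ⟨h1, (h q h1 hqp).mpr h2, h3⟩

/-- **`Su` does not change** when the level keeps its prime divisors away from `p`. -/
theorem atLevel_Su (h : ∀ q : ℕ, q.Prime → q ≠ p → (q ∣ M' ↔ q ∣ M)) :
    (atLevel P D' hM').Su = P.Su := by
  ext q
  rw [Pkg.mem_Su_iff, Pkg.mem_Su_iff]
  constructor
  · rintro ⟨h1, h2, h3, h4⟩
    exact ⟨h1, (h q h1 h3).mp h2, h3, h4⟩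
  · rintro ⟨h1, h2, h3, h4⟩
    exact ⟨h1, (h q h1 h3).mpr h2, h3, h4⟩

/-- **`S0` does not change** when the level keeps its prime divisors away from `p`. -/
theorem atLevel_S0_eq (h : ∀ q : ℕ, q.Prime → q ≠ p → (q ∣ M' ↔ q ∣ M)) :
    (atLevel P D' hM').S0 = P.S0 := by
  ext q
  simp only [Pkg.S0, Finset.mem_union, Finset.mem_singleton, Nat.mem_primeFactors]
  constructor
  · rintro ((⟨h1, h2, -⟩ | hq) | hq)
    · by_cases hqp : q = p
      · exact Or.inl (Or.inr hqp)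
      · exact Or.inl (Or.inl ⟨h1, (h q h1 hqp).mp h2, P.hM⟩)
    · exact Or.inl (Or.inr hq)
    · exact Or.inr hq
  · rintro ((⟨h1, h2, -⟩ | hq) | hq)
    · by_cases hqp : q = p
      · exact Or.inl (Or.inr hqp)
      · exact Or.inl (Or.inl ⟨h1, (h q h1 hqp).mpr h2, hM'⟩)
    · exact Or.inl (Or.inr hq)
    · exact Or.inr hq

end AtLevel

/-! ### the two instances: `M ↦ M * p` and `M * p ↦ M` -/

/-- `M * p` and `M` have the same prime divisors away from `p`. -/
theorem dvd_mul_prime_iff (M : ℕ) {q : ℕ} (hq : q.Prime) (hqp : q ≠ p) :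
    q ∣ M * p ↔ q ∣ M := by
  constructor
  · intro h
    rcases (Nat.Prime.dvd_mul hq).mp h with h1 | h1
    · exact h1
    · exact absurd ((Nat.prime_dvd_prime_iff_eq hq (Fact.out : p.Prime)).mp h1) hqp
  · intro h
    exact h.mul_right p

section Up

variable {P : Pkg p W hcard₁ hker M A} {D' : ModData W p (M * p)} {hM' : M * p ≠ 0}

theorem atLevel_mul_Smin : (atLevel P D' hM').Smin = P.Smin :=
  atLevel_Smin fun _ hq hqp => dvd_mul_prime_iff M hq hqp

theorem atLevel_mul_Su : (atLevel P D' hM').Su = P.Su :=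
  atLevel_Su fun _ hq hqp => dvd_mul_prime_iff M hq hqp

theorem atLevel_mul_S0 : (atLevel P D' hM').S0 = P.S0 :=
  atLevel_S0_eq fun _ hq hqp => dvd_mul_prime_iff M hq hqp

end Up

section Down

variable {M₁ : ℕ} {P : Pkg p W hcard₁ hker (M₁ * p) A} {D' : ModData W p M₁} {hM' : M₁ ≠ 0}

theorem atLevel_div_Smin : (atLevel P D' hM').Smin = P.Smin :=
  atLevel_Smin fun _ hq hqp => (dvd_mul_prime_iff M₁ hq hqp).symm

theorem atLevel_div_Su : (atLevel P D' hM').Su = P.Su :=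
  atLevel_Su fun _ hq hqp => (dvd_mul_prime_iff M₁ hq hqp).symm

theorem atLevel_div_S0 : (atLevel P D' hM').S0 = P.S0 :=
  atLevel_S0_eq fun _ hq hqp => (dvd_mul_prime_iff M₁ hq hqp).symm

end Down

/-! ### (c) transport of a modular point along a local map of coefficient rings -/

/-- `ZMod p`-structures are preserved by every ring map of residue fields. -/
theorem residueMap_algebraMap_zmod {O₁ O₂ : Type} [CommRing O₁] [IsLocalRing O₁] [CommRing O₂]
    [IsLocalRing O₂] [Algebra (ZMod p) (ResidueField O₁)] [Algebra (ZMod p) (ResidueField O₂)]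
    (ι : O₁ →+* O₂) [IsLocalHom ι] (x : ZMod p) :
    ResidueField.map ι (algebraMap (ZMod p) (ResidueField O₁) x) =
      algebraMap (ZMod p) (ResidueField O₂) x := by
  have h : (ResidueField.map ι).comp (algebraMap (ZMod p) (ResidueField O₁)) =
      algebraMap (ZMod p) (ResidueField O₂) := Subsingleton.elim _ _
  exact RingHom.congr_fun h x

/-- the `ℤ`-level (`ZMod p`-valued) eigensystem only depends on the modularity datum. -/
theorem theta_congr {D₁ D₂ : ModData W p M} [NeZero M] (h : D₂ = D₁) (S : Set ℕ)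
    (hpS : p ∈ S) (hMS : ∀ q : ℕ, q.Prime → q ∣ M → q ∈ S)
    (hWS : ∀ q : ℕ, q.Prime → ¬ W.IsGoodPrimeFor q → q ∈ S)
    (hpS' : p ∈ S) (hMS' : ∀ q : ℕ, q.Prime → q ∣ M → q ∈ S)
    (hWS' : ∀ q : ℕ, q.Prime → ¬ W.IsGoodPrimeFor q → q ∈ S) :
    theta D₂ S hpS' hMS' hWS' = theta D₁ S hpS hMS hWS := by
  subst h
  rfl

/-- **(c)** a modular point of `P₁` pushed along a local map `ι : P₁.O →+* P₂.O` is a modular point
of `P₂`, for bundles at the same level with the same modularity datum. -/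
theorem theta_comp_of_isLocalHom [NeZero M] (P₁ P₂ : Pkg p W hcard₁ hker M A)
    (hD : P₂.D = P₁.D) (ι : P₁.O →+* P₂.O) [IsLocalHom ι]
    (χ : ↥(heckeAlgebra M 2 (↑P₁.S0 : Set ℕ)) →+* P₁.O)
    (hχ : ∀ t : ↥(heckeAlgebra M 2 (↑P₁.S0 : Set ℕ)), residue P₁.O (χ t) = P₁.theta t)
    (t : ↥(heckeAlgebra M 2 (↑P₂.S0 : Set ℕ))) :
    residue P₂.O (ι (χ t)) = P₂.theta t := by
  have h1 : residue P₂.O (ι (χ t)) = ResidueField.map ι (residue P₁.O (χ t)) :=
    (ResidueField.map_residue ι (χ t)).symm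
  rw [h1, hχ t]
  change ResidueField.map ι (algebraMap (ZMod p) (ResidueField P₁.O)
      (theta P₁.D (↑P₁.S0 : Set ℕ) P₁.hpS0 P₁.hMS0 P₁.hWS0 t)) =
    algebraMap (ZMod p) (ResidueField P₂.O)
      (theta P₂.D (↑P₂.S0 : Set ℕ) P₂.hpS0 P₂.hMS0 P₂.hWS0 t)
  rw [residueMap_algebraMap_zmod ι]
  have h2 : theta P₂.D (↑P₂.S0 : Set ℕ) P₂.hpS0 P₂.hMS0 P₂.hWS0 =
      theta P₁.D (↑P₁.S0 : Set ℕ) P₁.hpS0 P₁.hMS0 P₁.hWS0 :=
    theta_congr hD (↑P₁.S0 : Set ℕ) P₁.hpS0 P₁.hMS0 P₁.hWS0 P₂.hpS0 P₂.hMS0 P₂.hWS0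
  rw [h2]
  rfl

/-- the ring-hom form of (c). -/
theorem theta_comp_of_isLocalHom' [NeZero M] (P₁ P₂ : Pkg p W hcard₁ hker M A)
    (hD : P₂.D = P₁.D) (ι : P₁.O →+* P₂.O) [IsLocalHom ι]
    (χ : ↥(heckeAlgebra M 2 (↑P₁.S0 : Set ℕ)) →+* P₁.O)
    (hχ : ∀ t : ↥(heckeAlgebra M 2 (↑P₁.S0 : Set ℕ)), residue P₁.O (χ t) = P₁.theta t) :
    ∃ χ' : ↥(heckeAlgebra M 2 (↑P₂.S0 : Set ℕ)) →+* P₂.O,
      (∀ t : ↥(heckeAlgebra M 2 (↑P₁.S0 : Set ℕ)), χ' t = ι (χ t)) ∧
      ∀ t : ↥(heckeAlgebra M 2 (↑P₂.S0 : Set ℕ)), residue P₂.O (χ' t) = P₂.theta t :=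
  ⟨ι.comp χ, fun _ => rfl, fun t => theta_comp_of_isLocalHom P₁ P₂ hD ι χ hχ t⟩

/-- **(c), two-level form**: `P₁` at level `M` with a modular point `χ`, `P` a bundle at ANY level
`M'` with a local map `ι : P₁.O →+* P.O`; then `ι ∘ χ` is a modular point of the bundle
`atLevel P P₁.D P₁.hM` (level `M`, coefficient ring `P.O`). -/
theorem theta_comp_atLevel [NeZero M] (P₁ : Pkg p W hcard₁ hker M A) {M' : ℕ}
    (P : Pkg p W hcard₁ hker M' A) (ι : P₁.O →+* P.O) [hι : IsLocalHom ι]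
    (χ : ↥(heckeAlgebra M 2 (↑P₁.S0 : Set ℕ)) →+* P₁.O)
    (hχ : ∀ t : ↥(heckeAlgebra M 2 (↑P₁.S0 : Set ℕ)), residue P₁.O (χ t) = P₁.theta t)
    (t : ↥(heckeAlgebra M 2 (↑(atLevel P P₁.D P₁.hM).S0 : Set ℕ))) :
    residue P.O (ι (χ t)) = (atLevel P P₁.D P₁.hM).theta t :=
  @theta_comp_of_isLocalHom p _ W hcard₁ hker M A _ P₁ (atLevel P P₁.D P₁.hM) rfl ι hι χ hχ t

/-! ### (b) `exists_pkg_point`, returning the map of coefficient rings -/

/-- **(b)** the bundle re-based on a coefficient ring with a modular point, WITH the map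
`ι : P₀.O →+* P.O` (local, injective, compatible with the `ℤ_[p]`- and `ZMod p`-structures). -/
theorem exists_pkg_point_alg [NeZero M] (P₀ : Pkg p W hcard₁ hker M A) :
    ∃ (P : Pkg p W hcard₁ hker M A) (ι : P₀.O →+* P.O)
      (χ : ↥(heckeAlgebra M 2 (↑P.S0 : Set ℕ)) →+* P.O),
      P.D = P₀.D ∧ IsLocalHom ι ∧ Function.Injective ι ∧
      (∀ t : ↥(heckeAlgebra M 2 (↑P.S0 : Set ℕ)), residue P.O (χ t) = P.theta t) ∧
      (∀ x : ℤ_[p], algebraMap ℤ_[p] P.O x = ι (algebraMap ℤ_[p] P₀.O x)) ∧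
      P.ζ = ι P₀.ζ := by
  obtain ⟨H₀, -⟩ := P₀.exists_datum
  obtain ⟨O'', i1, i2, i3, i4, i5, i6, i7, i8, i9, hinj', χ, hχ⟩ := exists_ext_eigensystem H₀
  obtain ⟨a1, a2, a3, a4, e1, e2, hi, hp, ⟨ϖ, hϖ⟩, hζ, hk⟩ :=
    coeff_ext P₀.injZp P₀.hpO P₀.ζ P₀.hζ P₀.hk O'' hinj'
  let P : Pkg p W hcard₁ hker M A :=
    { O := O''
      crO := i1
      domO := i2
      dvrO := i3
      complO := i4
      finO := i5
      char0 := i6
      algZp := a1
      finZp := a2
      locZp := a3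
      algk := a4
      injZp := hi
      ϖ := ϖ
      hϖ := hϖ
      hpO := hp
      ζ := algebraMap P₀.O O'' P₀.ζ
      hζ := hζ
      hk := hk
      D := P₀.D
      hM := P₀.hM
      hp2 := P₀.hp2
      hΔ := P₀.hΔ
      hirr := P₀.hirr
      htrans := P₀.htrans }
  refine ⟨P, algebraMap P₀.O O'', χ, rfl, i9, hinj', fun t => ?_, fun x => ?_, rfl⟩
  · refine (hχ t).trans ?_
    change ResidueField.map (algebraMap P₀.O O'')
        (algebraMap (ZMod p) (ResidueField P₀.O)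
          (theta P₀.D (↑P₀.S0 : Set ℕ) P₀.hpS0 P₀.hMS0 P₀.hWS0 t)) =
      algebraMap (ZMod p) (ResidueField O'')
        (theta P₀.D (↑P₀.S0 : Set ℕ) P₀.hpS0 P₀.hMS0 P₀.hWS0 t)
    rw [e2]
    rfl
  · change algebraMap ℤ_[p] O'' x = algebraMap P₀.O O'' (algebraMap ℤ_[p] P₀.O x)
    rw [e1]
    rfl

end Fermat.Agent.GE9.Point.PkgLevel
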